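import Fermat.Agent.Red.GV.Bar
import Fermat.Agent.Red.MatchLoc

/-!
# P-RED / R-NORMALIZE: the local interface

`IfaceNormalize` (S37/Gate.lean) is reduced in `Fermat.Agent.Red.Nz.Main` to one local statement,
`LocUnit`, which is frozen here as a `def … : Prop`.

Notation: `R` a chart (`modelFin M A` or `modelInf M A`), `n` a maximal ideal of `R` containing
`𝔪_A R` (a closed point of the special fibre), `V = gaussV A M` the Gauss valuation ring and
`gaussR A M : V → k((q))` its reduction map.

* `CenteredAt A R n v` : the place `v` of `F_M` specialises to `n` (all values of `R` at `v` lie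
  in `A`, those of `n` in `𝔪_A`).
* `LocDegZero A R n x` : the divisor of `x` has degree `0` on the places centred at `n`.
* `GaussSmall A M z` : `z` lies in the maximal ideal of the Gauss valuation.
* `RedUnitAt A R n x` : the reduction of `x` is a unit at `n`: `x̄ · b̄ = ā` with `a, b ∈ R ∖ n`.
* `LocUnit` : at a good level, for a Gauss unit `x`, `LocDegZero` at `n` implies `RedUnitAt` at `n`
  (all closed points of the finite chart, and the closed points with `1/j = 0` of the chart at
  infinity).
-/

set_option autoImplicit false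

open AlgebraicCurve ModularCurve

noncomputable section

namespace Fermat.Agent.Red.Nz

open Fermat.Agent.S37 Fermat.Agent.Red.GV Fermat.Agent.Red.Match

/-- The place `v` is centred at the ideal `n` of the subring `R`: all values of `R` at `v` lie
in `A`, and the values of the elements of `n` lie in `𝔪_A`. -/
def CenteredAt {M : ℕ} (A : ValuationSubring Kbar) (R : Subring (FF M)) (n : Ideal R)
    (v : Place Kbar (FF M)) : Prop :=
  (∀ f : R, ∃ a : A, ValueAt v (f : FF M) (a : Kbar)) ∧
    ∀ f ∈ n, ∃ a : Kbar, a ∈ A.nonunits ∧ ValueAt v (f : FF M) a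

/-- The divisor of `x` has degree zero on the places centred at `n`. -/
def LocDegZero {M : ℕ} (A : ValuationSubring Kbar) (R : Subring (FF M)) (n : Ideal R)
    (x : FF M) : Prop :=
  ∃ T : Finset (Place Kbar (FF M)), (∀ v ∈ T, CenteredAt A R n v) ∧
    (∀ v : Place Kbar (FF M), CenteredAt A R n v → v.ord x ≠ 0 → v ∈ T) ∧
    ∑ v ∈ T, v.ord x = 0

/-- `z` lies in the maximal ideal of the Gauss valuation attached to `A`. -/
def GaussSmall (A : ValuationSubring Kbar) (M : ℕ) (z : FF M) : Prop :=
  ∃ h : z ∈ gaussV A M, gaussR A M ⟨z, h⟩ = 0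

/-- The reduction of `x` modulo the Gauss valuation is a unit at the closed point `n` of the
chart `R`: there are `a, b ∈ R ∖ n` with `x · b ≡ a`. -/
def RedUnitAt {M : ℕ} (A : ValuationSubring Kbar) (R : Subring (FF M)) (n : Ideal R)
    (x : FF M) : Prop :=
  ∃ a b : R, a ∉ n ∧ b ∉ n ∧ GaussSmall A M (x * (b : FF M) - (a : FF M))

/-- **LOCAL input of NORMALIZE.**  At a good level, let `x` be a Gauss unit and `n` a closed
point of the special fibre (any closed point of the finite chart, or a closed point of the
chart at infinity with `1/j = 0`).  If the divisor of `x` has degree zero on the places centred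
at `n`, then the reduction of `x` is a unit at `n`. -/
def LocUnit : Prop :=
  ∀ ℓ : ℕ, ℓ.Prime → ∀ (M : ℕ) [NeZero M], ¬ ℓ ∣ M → auxLevel ℓ ∣ M →
    ∀ A : ValuationSubring Kbar, A.LiesOverPrime ℓ →
    ∀ x : FF M, x ≠ 0 → x ∈ gaussV A M → x⁻¹ ∈ gaussV A M →
      (∀ n : Ideal (modelFin M A), n.IsMaximal → maxExt A (modelFin M A) ≤ n →
        LocDegZero A (modelFin M A) n x → RedUnitAt A (modelFin M A) n x) ∧
      (∀ n : Ideal (modelInf M A), n.IsMaximal → maxExt A (modelInf M A) ≤ n →
        (∀ h : (jB M)⁻¹ ∈ modelInf M A, (⟨(jB M)⁻¹, h⟩ : modelInf M A) ∈ n) →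
        LocDegZero A (modelInf M A) n x → RedUnitAt A (modelInf M A) n x)

end Fermat.Agent.Red.Nz
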