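import Mathlib

/-!
# P-RED / R-NORMALIZE: commutative algebra (Mathlib only)

* `h89_isAlgebraic_of_isIntegral_adjoin` : an element of a field `L ⊇ k` which is integral over
  `k[j]` and over `k[j⁻¹]` is algebraic over `k` ("a function without poles is constant").
* `h89_exists_algebraMap_eq_of_isAlgebraic` : over an algebraically closed field, algebraic
  elements of a field extension are constants.
* `h89_mem_range_of_local` : local-global principle for membership in the image of a ring
  (an element of a field which is locally a fraction with unit denominator at every maximal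
  ideal containing the kernel belongs to the image).
-/

set_option autoImplicit false

open Polynomial

namespace Fermat.Agent.Red.Nz

/-- A valuation subring containing the constants and `j` contains every element integral over
`k[j]`. -/
theorem h89_mem_valuationSubring_of_isIntegral_adjoin {k L : Type*} [Field k] [Field L]
    [Algebra k L] (W : ValuationSubring L) (hk : ∀ c : k, algebraMap k L c ∈ W) (j y : L)
    (hj : j ∈ W) (h : IsIntegral (Algebra.adjoin k {j}) y) : y ∈ W := by
  let Wa : Subalgebra k L :=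
    { W.toSubring with
      algebraMap_mem' := hk }
  have hle : Algebra.adjoin k {j} ≤ Wa := Algebra.adjoin_le (by
    intro z hz
    rw [Set.mem_singleton_iff] at hz
    rw [hz]
    exact hj)
  obtain ⟨P, hPm, hP⟩ := h
  let ι : Algebra.adjoin k {j} →+* W :=
    { toFun := fun z => ⟨(z : L), hle z.2⟩
      map_one' := rfl
      map_mul' := fun _ _ => rfl
      map_zero' := rfl
      map_add' := fun _ _ => rfl }
  have hint : IsIntegral W y := by
    refine ⟨P.map ι, hPm.map _, ?_⟩
    rw [Polynomial.eval₂_map]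
    exact hP
  obtain ⟨z, hz⟩ := IsIntegrallyClosed.isIntegral_iff.mp hint
  rw [← hz]
  exact z.2

/-- **A function without poles is constant.**  An element of a field `L ⊇ k` which is integral
over `k[j]` and over `k[j⁻¹]` is algebraic over `k`. -/
theorem h89_isAlgebraic_of_isIntegral_adjoin {k L : Type*} [Field k] [Field L] [Algebra k L]
    (j y : L) (h1 : IsIntegral (Algebra.adjoin k {j}) y)
    (h2 : IsIntegral (Algebra.adjoin k {j⁻¹}) y) : IsAlgebraic k y := by
  by_contra hy
  have hy0 : y ≠ 0 := by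
    rintro rfl
    exact hy (isAlgebraic_zero)
  have hyi : ¬ IsAlgebraic k y⁻¹ := fun h => hy (IsAlgebraic.inv_iff.mp h)
  set S : Subalgebra k L := Algebra.adjoin k {y⁻¹} with hS
  have hyS : y⁻¹ ∈ S.toSubring := Algebra.subset_adjoin rfl
  have hI : Ideal.span {(⟨y⁻¹, hyS⟩ : S.toSubring)} ≠ ⊤ := by
    intro htop
    have h1' : (1 : S.toSubring) ∈ Ideal.span {(⟨y⁻¹, hyS⟩ : S.toSubring)} := by
      rw [htop]; trivial
    obtain ⟨s, hs⟩ := Ideal.mem_span_singleton'.mp h1'
    have hsS : (s : L) ∈ Algebra.adjoin k {y⁻¹} := s.2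
    rw [Algebra.adjoin_singleton_eq_range_aeval] at hsS
    obtain ⟨P, hP⟩ := hsS
    have hs' : (s : L) * y⁻¹ = 1 := congrArg Subtype.val hs
    apply hyi
    refine ⟨P * X - 1, ?_, ?_⟩
    · intro h0
      have h3 := congrArg (Polynomial.eval 0) h0
      simp at h3
    · have hP' : (Polynomial.aeval y⁻¹) P = (s : L) := hP
      rw [map_sub, map_mul, aeval_X, map_one, hP', hs', sub_self]
  obtain ⟨W, hSW, hIW⟩ := Ideal.image_subset_nonunits_valuationSubring _ hI
  have hyW : y ∉ W := by
    have h3 : y⁻¹ ∈ W.nonunits :=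
      hIW ⟨⟨y⁻¹, hyS⟩, Ideal.subset_span rfl, rfl⟩
    rcases W.inv_mem_nonunits_iff.mp h3 with h4 | h4
    · exact absurd h4 hy0
    · exact h4
  have hk : ∀ c : k, algebraMap k L c ∈ W := fun c => hSW (S.algebraMap_mem c)
  rcases W.mem_or_inv_mem j with hj | hj
  · exact hyW (h89_mem_valuationSubring_of_isIntegral_adjoin W hk j y hj h1)
  · exact hyW (h89_mem_valuationSubring_of_isIntegral_adjoin W hk j⁻¹ y hj h2)

/-- Over an algebraically closed field, algebraic elements of a field extension are
constants. -/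
theorem h89_exists_algebraMap_eq_of_isAlgebraic {k L : Type*} [Field k] [IsAlgClosed k]
    [Field L] [Algebra k L] {y : L} (hy : IsAlgebraic k y) : ∃ c : k, algebraMap k L c = y := by
  have hint : IsIntegral k y := hy.isIntegral
  have hq := minpoly.monic hint
  have h : (minpoly k y).degree = 1 :=
    IsAlgClosed.degree_eq_one_of_irreducible k (minpoly.irreducible hint)
  have h3 := minpoly.aeval k y
  rw [eq_X_add_C_of_degree_eq_one h, hq.leadingCoeff, C_1, one_mul, aeval_add, aeval_X, aeval_C,
    add_eq_zero_iff_eq_neg] at h3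
  exact ⟨-(minpoly k y).coeff 0, by rw [map_neg]; exact h3.symm⟩

/-- **Local-global principle.**  Let `φ : R → L` be a ring homomorphism to a field and `y : L`.
If for every maximal ideal `n ⊇ ker φ` there are `a, b : R`, `b ∉ n`, with `y · φ b = φ a`,
then `y` is in the image of `φ`. -/
theorem h89_mem_range_of_local {R L : Type*} [CommRing R] [Field L] (φ : R →+* L) (y : L)
    (h : ∀ n : Ideal R, n.IsMaximal → RingHom.ker φ ≤ n → ∃ a b : R, b ∉ n ∧ y * φ b = φ a) :
    ∃ a : R, φ a = y := by
  let I : Ideal R :=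
    { carrier := {b | ∃ a : R, y * φ b = φ a}
      zero_mem' := ⟨0, by rw [map_zero, mul_zero]⟩
      add_mem' := by
        rintro b b' ⟨a, ha⟩ ⟨a', ha'⟩
        exact ⟨a + a', by rw [map_add, map_add, mul_add, ha, ha']⟩
      smul_mem' := by
        rintro c b ⟨a, ha⟩
        exact ⟨c * a, by rw [smul_eq_mul, map_mul, map_mul, mul_left_comm, ha]⟩ }
  have hker : RingHom.ker φ ≤ I := by
    intro b hb
    exact ⟨0, by rw [RingHom.mem_ker.mp hb, mul_zero, map_zero]⟩
  by_cases hI : I = ⊤
  · have h1 : (1 : R) ∈ I := by rw [hI]; trivial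
    obtain ⟨a, ha⟩ := h1
    exact ⟨a, by rw [← ha, map_one, mul_one]⟩
  · obtain ⟨n, hn, hIn⟩ := I.exists_le_maximal hI
    obtain ⟨a, b, hb, hab⟩ := h n hn (hker.trans hIn)
    exact absurd (hIn ⟨a, hab⟩) hb

/-- `E_{t⁻¹}(reflect N p) = E_t(p) · t⁻ᴺ`. -/
theorem h89_eval₂_inv_reflect {A S : Type*} [CommRing A] [Field S] (i : A →+* S) (t : S)
    (ht : t ≠ 0) (N : ℕ) (p : A[X]) (hp : p.natDegree ≤ N) :
    Polynomial.eval₂ i t⁻¹ (p.reflect N) = Polynomial.eval₂ i t p * t⁻¹ ^ N := by
  let _ : Invertible t := invertibleOfNonzero ht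
  have h := Polynomial.eval₂_reflect_mul_pow i t N p hp
  rw [invOf_eq_inv] at h
  rw [← h, mul_assoc, ← mul_pow, mul_inv_cancel₀ ht, one_pow, mul_one]

/-- **Chart comparison.**  If `y` is integral over `A[t]`, then `t⁻ᵐ y` is integral over
`A[t⁻¹]` for some `m`. -/
theorem h89_isIntegralElem_inv_pow_mul {A S : Type*} [CommRing A] [Field S] (i : A →+* S)
    (t : S) (ht : t ≠ 0) (y : S) (h : (Polynomial.eval₂RingHom i t).IsIntegralElem y) :
    ∃ m : ℕ, (Polynomial.eval₂RingHom i t⁻¹).IsIntegralElem (t⁻¹ ^ m * y) := by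
  obtain ⟨P, hPm, hP⟩ := h
  set m : ℕ := P.support.sup (fun n => (P.coeff n).natDegree) with hm
  have hmle : ∀ n, (P.coeff n).natDegree ≤ m := by
    intro n
    by_cases hn : n ∈ P.support
    · exact Finset.le_sup (f := fun n => (P.coeff n).natDegree) hn
    · rw [Polynomial.notMem_support_iff.mp hn, Polynomial.natDegree_zero]
      exact Nat.zero_le _
  refine ⟨m, ?_⟩
  set PS : S[X] := P.map (Polynomial.eval₂RingHom i t) with hPS
  have hPSm : PS.Monic := hPm.map _
  have hdeg : PS.natDegree = P.natDegree := hPm.natDegree_map _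
  have hQm : (PS.scaleRoots (t⁻¹ ^ m)).Monic := (monic_scaleRoots_iff _).mpr hPSm
  have hroot : (PS.scaleRoots (t⁻¹ ^ m)).eval (t⁻¹ ^ m * y) = 0 := by
    rw [scaleRoots_eval_mul, hPS, Polynomial.eval_map, hP, mul_zero]
  have hlift : PS.scaleRoots (t⁻¹ ^ m) ∈ lifts (Polynomial.eval₂RingHom i t⁻¹) := by
    rw [lifts_iff_coeff_lifts]
    intro n
    rw [coeff_scaleRoots, hPS, Polynomial.coeff_map, ← hPS, hdeg, ← pow_mul]
    have hle : (P.coeff n).natDegree ≤ m * (P.natDegree - n) := by
      rcases lt_trichotomy n P.natDegree with hn | hn | hn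
      · calc (P.coeff n).natDegree ≤ m := hmle n
          _ = m * 1 := (mul_one m).symm
          _ ≤ m * (P.natDegree - n) := Nat.mul_le_mul_left m (by omega)
      · rw [hn, hPm.coeff_natDegree, Polynomial.natDegree_one]
        exact Nat.zero_le _
      · rw [Polynomial.coeff_eq_zero_of_natDegree_lt hn, Polynomial.natDegree_zero]
        exact Nat.zero_le _
    refine ⟨(P.coeff n).reflect (m * (P.natDegree - n)), ?_⟩
    rw [Polynomial.coe_eval₂RingHom, h89_eval₂_inv_reflect i t ht _ _ hle,
      Polynomial.coe_eval₂RingHom]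
  obtain ⟨Q', hQ'map, -, hQ'm⟩ := lifts_and_degree_eq_and_monic hlift hQm
  refine ⟨Q', hQ'm, ?_⟩
  rw [← Polynomial.eval_map, hQ'map]
  exact hroot

/-- Integrality with respect to `aeval j : k[X] → L` is integrality over `k[j]`. -/
theorem h89_isIntegral_adjoin_of_isIntegralElem {k L : Type*} [Field k] [Field L] [Algebra k L]
    (j y : L) (h : (Polynomial.aeval (R := k) j : k[X] →+* L).IsIntegralElem y) :
    IsIntegral (Algebra.adjoin k {j}) y := by
  obtain ⟨P, hPm, hP⟩ := h
  let ι : k[X] →+* Algebra.adjoin k {j} :=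
    { toFun := fun p => ⟨Polynomial.aeval j p, Polynomial.aeval_mem_adjoin_singleton k j⟩
      map_one' := Subtype.ext (map_one _)
      map_mul' := fun _ _ => Subtype.ext (map_mul _ _ _)
      map_zero' := Subtype.ext (map_zero _)
      map_add' := fun _ _ => Subtype.ext (map_add _ _ _) }
  refine ⟨P.map ι, hPm.map _, ?_⟩
  rw [Polynomial.eval₂_map]
  exact hP

/-- **A function without poles is constant** (form with `aeval`). -/
theorem h89_isAlgebraic_of_isIntegralElem {k L : Type*} [Field k] [Field L] [Algebra k L]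
    (j y : L) (h1 : (Polynomial.aeval (R := k) j : k[X] →+* L).IsIntegralElem y)
    (h2 : (Polynomial.aeval (R := k) j⁻¹ : k[X] →+* L).IsIntegralElem y) : IsAlgebraic k y :=
  h89_isAlgebraic_of_isIntegral_adjoin j y (h89_isIntegral_adjoin_of_isIntegralElem j y h1)
    (h89_isIntegral_adjoin_of_isIntegralElem j⁻¹ y h2)

end Fermat.Agent.Red.Nz
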