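import Fermat.Agent.Red.Nz.Dict
import Fermat.Agent.Red.Nz.Alg
import Fermat.Agent.S18.ResAlgClosed

/-!
# P-RED / R-NORMALIZE: `IfaceNormalize` from the local statement `LocUnit`

`ifaceNormalize_of_locUnit : LocUnit → IfaceNormalize`.

Let `div u = r · D` with `D ∈ redKer`.  Scale `u` to a Gauss unit `x` (GV).  By the dictionary
`x` has local degree zero at every closed point of the special fibre, so by `LocUnit` its
reduction `x̄` is a unit at every closed point.  By the local-global principle `x̄` lies in the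
image of both charts, hence is integral over `k[j̄]` and over `k[1/j̄]`, hence algebraic over `k`,
hence a nonzero constant (`k` is algebraically closed).  Rescaling by a unit of `A` gives
reduction `1`, which is `CongOne`.
-/

set_option autoImplicit false

open AlgebraicCurve ModularCurve Polynomial

noncomputable section

namespace Fermat.Agent.Red.Nz

open Fermat.Agent.S37 Fermat.Agent.Red.GV Fermat.Agent.Red.Match

theorem h89_algebraMap_eq_C (k : Type) [Field k] (c : k) :
    algebraMap k (LaurentSeries k) c = HahnSeries.C c := by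
  have h1 : algebraMap k (PowerSeries k) c = PowerSeries.C c := by simp
  rw [HahnSeries.algebraMap_apply', h1, HahnSeries.ofPowerSeries_C]

section Red

variable {M : ℕ} {A : ValuationSubring Kbar}

theorem h89_gaussR_congr {z z' : FF M} (h : z ∈ gaussV A M) (h' : z' ∈ gaussV A M)
    (e : z = z') : gaussR A M ⟨z, h⟩ = gaussR A M ⟨z', h'⟩ := by
  subst e
  rfl

/-- the reduction of a constant. -/
theorem h89_gaussR_cst (a : A) (h : cst M (a : Kbar) ∈ gaussV A M) :
    gaussR A M ⟨cst M (a : Kbar), h⟩ = HahnSeries.C (IsLocalRing.residue A a) :=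
  gaussRed_algebraMap A (IsLocalRing.residue A) M a

theorem h89_cst_mem_gaussV (a : A) : cst M (a : Kbar) ∈ gaussV A M :=
  algebraMap_mem_gaussSubring A (IsLocalRing.residue A) M a

/-- the restriction of the reduction map to a subring of the Gauss ring. -/
def h89_red (R : Subring (FF M)) (hR : R ≤ gaussV A M) :
    R →+* LaurentSeries (IsLocalRing.ResidueField A) :=
  (gaussR A M).comp (Subring.inclusion hR)

theorem h89_red_apply (R : Subring (FF M)) (hR : R ≤ gaussV A M) (f : R) :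
    h89_red R hR f = gaussR A M ⟨(f : FF M), hR f.2⟩ :=
  rfl

/-- `𝔪_A R` reduces to zero. -/
theorem h89_maxExt_le_ker (R : Subring (FF M)) (hR : R ≤ gaussV A M) :
    maxExt A R ≤ RingHom.ker (h89_red R hR) := by
  unfold maxExt
  rw [Ideal.span_le]
  rintro x ⟨a, ha, hxa⟩
  rw [SetLike.mem_coe, RingHom.mem_ker, h89_red_apply]
  have haA : a ∈ A := ValuationSubring.nonunits_subset ha
  rw [h89_gaussR_congr (hR x.2) (h89_cst_mem_gaussV (⟨a, haA⟩ : A)) hxa, h89_gaussR_cst,
    (IsLocalRing.residue_eq_zero_iff _).mpr, map_zero]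
  exact ValuationSubring.coe_mem_nonunits_iff.mp ha

/-- from `GaussSmall (x b - a)` to an identity of reductions. -/
theorem h89_red_eq_of_gaussSmall (R : Subring (FF M)) (hR : R ≤ gaussV A M) {x : FF M}
    (hx : x ∈ gaussV A M) (a b : R) (h : GaussSmall A M (x * (b : FF M) - (a : FF M))) :
    gaussR A M ⟨x, hx⟩ * h89_red R hR b = h89_red R hR a := by
  obtain ⟨hz, hz0⟩ := h
  have h1 : (⟨x * (b : FF M) - (a : FF M), hz⟩ : gaussV A M) =
      ⟨x, hx⟩ * ⟨(b : FF M), hR b.2⟩ - ⟨(a : FF M), hR a.2⟩ := Subtype.ext rfl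
  rw [h1, map_sub, map_mul, sub_eq_zero] at hz0
  exact hz0

theorem h89_ringAdj_le_gaussV (t : FF M) (ht : t ∈ gaussV A M) :
    ringAdj M A t ≤ gaussV A M := by
  unfold ringAdj
  rw [Subring.closure_le]
  rintro z (⟨a, ha, rfl⟩ | hz)
  · exact h89_cst_mem_gaussV (⟨a, ha⟩ : A)
  · rw [Set.mem_singleton_iff] at hz
    rw [hz]
    exact ht

/-- **Integrality passes to the reduction.**  The reduction of an element integral over `A[t]`
is integral over `k[t̄]`. -/
theorem h89_isIntegralElem_red (t : FF M) (ht : t ∈ gaussV A M) (f : FF M)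
    (hf : f ∈ modelAt M A t) (hfV : f ∈ gaussV A M) :
    (Polynomial.aeval (R := IsLocalRing.ResidueField A) (gaussR A M ⟨t, ht⟩) :
      (IsLocalRing.ResidueField A)[X] →+* LaurentSeries (IsLocalRing.ResidueField A)).IsIntegralElem
      (gaussR A M ⟨f, hfV⟩) := by
  have h1 : (evalF M A t).IsIntegralElem f := (isIntegralElem_subtype_iff M A t f).mp hf
  obtain ⟨P, hPm, hP⟩ := h1
  have hmem : ∀ Q : Polynomial A, evalF M A t Q ∈ gaussV A M := fun Q =>
    h89_ringAdj_le_gaussV t ht (evalF_mem_ringAdj M A t Q)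
  let e : Polynomial A →+* gaussV A M := (evalF M A t).codRestrict (gaussV A M) hmem
  have hcomp : (gaussR A M).comp e =
      (Polynomial.aeval (R := IsLocalRing.ResidueField A) (gaussR A M ⟨t, ht⟩) :
        (IsLocalRing.ResidueField A)[X] →+* LaurentSeries (IsLocalRing.ResidueField A)).comp
        (Polynomial.mapRingHom (IsLocalRing.residue A)) := by
    apply Polynomial.ringHom_ext
    · intro a
      rw [RingHom.comp_apply, RingHom.comp_apply, Polynomial.coe_mapRingHom, Polynomial.map_C]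
      have h2 : e (Polynomial.C a) = ⟨cst M (a : Kbar), h89_cst_mem_gaussV a⟩ :=
        Subtype.ext (evalF_C M A t a)
      rw [h2, h89_gaussR_cst]
      simp only [AlgHom.coe_toRingHom, Polynomial.aeval_C]
      exact (h89_algebraMap_eq_C _ _).symm
    · rw [RingHom.comp_apply, RingHom.comp_apply, Polynomial.coe_mapRingHom, Polynomial.map_X]
      have h2 : e Polynomial.X = ⟨t, ht⟩ := Subtype.ext (evalF_X M A t)
      rw [h2]
      simp only [AlgHom.coe_toRingHom, Polynomial.aeval_X]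
  have h2 : Polynomial.eval₂ e (⟨f, hfV⟩ : gaussV A M) P = 0 := by
    apply Subtype.ext
    have h3 := Polynomial.hom_eval₂ P e (gaussV A M).subtype (⟨f, hfV⟩ : gaussV A M)
    exact h3.trans hP
  refine ⟨P.map (Polynomial.mapRingHom (IsLocalRing.residue A)), hPm.map _, ?_⟩
  rw [Polynomial.eval₂_map, ← hcomp, ← Polynomial.hom_eval₂, h2, map_zero]

end Red

/-- **NORMALIZE from LOCAL.** -/
theorem ifaceNormalize_of_locUnit (hloc : LocUnit) : IfaceNormalize := by
  intro ℓ hℓ M _ hM haux A hA r hr hrℓ D hD u hu hdiv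
  have : IsAlgClosed (IsLocalRing.ResidueField A) :=
    Fermat.Agent.S18.h72_residueField_isAlgClosed A
  obtain ⟨c₀, hc₀, hxV, hxiV⟩ := exists_cst_mul_unit A M hℓ hM hA u hu
  have hcst0 : cst M c₀ ≠ 0 := by
    simpa only [cst, ne_eq, map_eq_zero] using hc₀
  have hx0 : cst M c₀ * u ≠ 0 := mul_ne_zero hcst0 hu
  have hord : ∀ v : Place Kbar (FF M), v.ord (cst M c₀ * u) = (r : ℤ) * D v := by
    intro v
    rw [v.ord_mul hcst0 hu, Fermat.Agent.S24.DiffPlace.ord_algebraMap, zero_add, hdiv]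
  obtain ⟨hfin, hinf⟩ := hloc ℓ hℓ M hM haux A hA (cst M c₀ * u) hx0 hxV hxiV
  have hRf := modelFin_le_gaussV A M hℓ hM hA
  have hRi := modelInf_le_gaussV A M hℓ hM hA
  have hjV : jB M ∈ gaussV A M := hRf (h89_jB_mem_modelFin M A)
  have hjiV : (jB M)⁻¹ ∈ gaussV A M := hRi (h89_jB_inv_mem_modelInf M A)
  -- Step 1: the reduction lies in the image of the finite chart
  have h1 : ∃ a : modelFin M A, h89_red (modelFin M A) hRf a =
      gaussR A M ⟨cst M c₀ * u, hxV⟩ := by
    apply h89_mem_range_of_local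
    intro n hn hker
    have hmax : maxExt A (modelFin M A) ≤ n := (h89_maxExt_le_ker _ hRf).trans hker
    have hdz : LocDegZero A (modelFin M A) n (cst M c₀ * u) :=
      locDegZero_of_mem_redKer _ n (fun v w h => centeredAt_fin_of_sameRed h) hD _ r hord
    obtain ⟨a, b, -, hb, hab⟩ := hfin n hn hmax hdz
    exact ⟨a, b, hb, h89_red_eq_of_gaussSmall _ hRf hxV a b hab⟩
  -- Step 2: the reduction lies in the image of the chart at infinity
  have h2 : ∃ a : modelInf M A, h89_red (modelInf M A) hRi a =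
      gaussR A M ⟨cst M c₀ * u, hxV⟩ := by
    apply h89_mem_range_of_local
    intro n hn hker
    have hmax : maxExt A (modelInf M A) ≤ n := (h89_maxExt_le_ker _ hRi).trans hker
    by_cases hj : (⟨(jB M)⁻¹, h89_jB_inv_mem_modelInf M A⟩ : modelInf M A) ∈ n
    · have hdz : LocDegZero A (modelInf M A) n (cst M c₀ * u) :=
        locDegZero_of_mem_redKer _ n (fun v w h => centeredAt_inf_of_sameRed hj h) hD _ r hord
      obtain ⟨a, b, -, hb, hab⟩ := hinf n hn hmax (fun _ => hj) hdz
      exact ⟨a, b, hb, h89_red_eq_of_gaussSmall _ hRi hxV a b hab⟩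
    · obtain ⟨a, ha⟩ := h1
      have ha1 : (evalF M A (jB M)).IsIntegralElem (a : FF M) :=
        (isIntegralElem_subtype_iff M A (jB M) a).mp a.2
      obtain ⟨m, hm⟩ := h89_isIntegralElem_inv_pow_mul _ (jB M) (h89_jB_ne_zero M) (a : FF M) ha1
      have hm' : (jB M)⁻¹ ^ m * (a : FF M) ∈ modelInf M A :=
        (isIntegralElem_subtype_iff M A (jB M)⁻¹ _).mpr hm
      refine ⟨⟨_, hm'⟩, (⟨(jB M)⁻¹, h89_jB_inv_mem_modelInf M A⟩ : modelInf M A) ^ m,
        fun h => hj (hn.isPrime.mem_of_pow_mem m h), ?_⟩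
      rw [← ha, h89_red_apply, h89_red_apply, h89_red_apply, ← map_mul]
      exact h89_gaussR_congr _ _ (mul_comm _ _)
  -- Step 3: the reduction is algebraic over `k`, hence constant
  obtain ⟨a, ha⟩ := h1
  obtain ⟨b, hb⟩ := h2
  have hi1 := h89_isIntegralElem_red (jB M) hjV (a : FF M) a.2 (hRf a.2)
  have hi2 := h89_isIntegralElem_red (jB M)⁻¹ hjiV (b : FF M) b.2 (hRi b.2)
  rw [h89_red_apply] at ha hb
  rw [ha] at hi1
  rw [hb] at hi2
  have hjinv : gaussR A M ⟨(jB M)⁻¹, hjiV⟩ = (gaussR A M ⟨jB M, hjV⟩)⁻¹ := by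
    have h3 : (⟨jB M, hjV⟩ : gaussV A M) * ⟨(jB M)⁻¹, hjiV⟩ = 1 :=
      Subtype.ext (mul_inv_cancel₀ (h89_jB_ne_zero M))
    have h4 := congrArg (gaussR A M) h3
    rw [map_mul, map_one] at h4
    exact eq_inv_of_mul_eq_one_right h4
  rw [hjinv] at hi2
  have halg := h89_isAlgebraic_of_isIntegralElem _ _ hi1 hi2
  obtain ⟨c, hc⟩ := h89_exists_algebraMap_eq_of_isAlgebraic halg
  rw [h89_algebraMap_eq_C] at hc
  obtain ⟨c', rfl⟩ := IsLocalRing.residue_surjective c
  -- `c'` is a unit of `A`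
  have hxne : gaussR A M ⟨cst M c₀ * u, hxV⟩ ≠ 0 := by
    intro h0
    rcases (gaussR_eq_zero_iff A M hℓ hM hA _).mp h0 with h3 | h3
    · exact hx0 h3
    · exact h3 hxiV
  have hc'u : IsUnit c' := by
    by_contra hnu
    apply hxne
    rw [← hc, (IsLocalRing.residue_eq_zero_iff c').mpr hnu, map_zero]
  obtain ⟨d, hd⟩ := hc'u.exists_left_inv
  have hd0 : (d : Kbar) ≠ 0 := by
    intro h0
    have h3 : ((d * c' : A) : Kbar) = 0 := by
      rw [MulMemClass.coe_mul, h0, zero_mul]
    rw [hd] at h3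
    exact one_ne_zero h3
  refine ⟨(d : Kbar) * c₀, mul_ne_zero hd0 hc₀, ?_⟩
  rw [congOne_iff_gaussR A M hℓ hM hA]
  have heq : cst M ((d : Kbar) * c₀) * u = cst M (d : Kbar) * (cst M c₀ * u) := by
    simp only [cst, map_mul]
    ring
  have hmem : cst M ((d : Kbar) * c₀) * u ∈ gaussV A M := by
    rw [heq]
    exact mul_mem (h89_cst_mem_gaussV d) hxV
  refine ⟨hmem, ?_⟩
  have h5 : (⟨cst M ((d : Kbar) * c₀) * u, hmem⟩ : gaussV A M) =
      ⟨cst M (d : Kbar), h89_cst_mem_gaussV d⟩ * ⟨cst M c₀ * u, hxV⟩ := Subtype.ext heq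
  rw [h5, map_mul, h89_gaussR_cst, ← hc, ← map_mul, ← map_mul, hd, map_one, map_one]

end Fermat.Agent.Red.Nz
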