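import Fermat.Agent.Red.Nz.Defs

/-!
# P-RED / R-NORMALIZE: the dictionary `redKer ⇒ LocDegZero`

* `centeredAt_fin_of_sameRed`, `centeredAt_inf_of_sameRed` : places with the same reduction are
  centred at the same closed points of the charts.
* `locDegZero_of_mem_redKer` : if `div x = r · D` with `D ∈ redKer`, then `x` has local degree
  zero at every closed point.
-/

set_option autoImplicit false

open AlgebraicCurve ModularCurve

noncomputable section

namespace Fermat.Agent.Red.Nz

open Fermat.Agent.S37 Fermat.Agent.Red.Match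

variable {M : ℕ} [NeZero M] {A : ValuationSubring Kbar}

theorem h89_jB_ne_zero (M : ℕ) [NeZero M] : jB M ≠ 0 := by
  intro h
  have h1 := Fermat.Agent.Red.GV.coe_jB M
  rw [h] at h1
  exact Fermat.Agent.Red.GV.Asm.jK_ne_zero Kbar h1.symm

theorem h89_jB_mem_modelFin (M : ℕ) [NeZero M] (A : ValuationSubring Kbar) :
    jB M ∈ modelFin M A :=
  ringAdj_le_modelAt M A (jB M) (Fermat.Agent.Red.Match.self_mem_ringAdj M A (jB M))

theorem h89_jB_inv_mem_modelInf (M : ℕ) [NeZero M] (A : ValuationSubring Kbar) :
    (jB M)⁻¹ ∈ modelInf M A :=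
  ringAdj_le_modelAt M A (jB M)⁻¹ (Fermat.Agent.Red.Match.self_mem_ringAdj M A (jB M)⁻¹)

omit [NeZero M] in
theorem h89_one_not_mem_nonunits (A : ValuationSubring Kbar) : (1 : Kbar) ∉ A.nonunits := by
  rw [ValuationSubring.mem_nonunits_iff, map_one]
  exact lt_irrefl _

/-- A place centred at a point of the finite chart is finite. -/
theorem h89_isFinAt_of_centeredAt {n : Ideal (modelFin M A)} {v : Place Kbar (FF M)}
    (h : CenteredAt A (modelFin M A) n v) : IsFinAt A v := by
  obtain ⟨a, ha⟩ := h.1 ⟨jB M, h89_jB_mem_modelFin M A⟩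
  exact ⟨a, a.2, ha⟩

/-- A place centred at a point with `1/j = 0` of the chart at infinity is not finite. -/
theorem h89_not_isFinAt_of_centeredAt {n : Ideal (modelInf M A)} {v : Place Kbar (FF M)}
    (hj : (⟨(jB M)⁻¹, h89_jB_inv_mem_modelInf M A⟩ : modelInf M A) ∈ n)
    (h : CenteredAt A (modelInf M A) n v) : ¬ IsFinAt A v := by
  rintro ⟨a, haA, hja⟩
  obtain ⟨b, hb, hjb⟩ := h.2 _ hj
  have h1 := valueAt_mul hja hjb
  rw [mul_inv_cancel₀ (h89_jB_ne_zero M)] at h1
  have h2 : a * b = 1 := valueAt_unique h1 (valueAt_one v)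
  have h3 : a * b ∈ A.nonunits := by
    rw [mul_comm]
    exact h71_mul_mem_nonunits A hb haA
  rw [h2] at h3
  exact h89_one_not_mem_nonunits A h3

/-- Places with the same reduction are centred at the same points of the finite chart. -/
theorem centeredAt_fin_of_sameRed {n : Ideal (modelFin M A)} {v w : Place Kbar (FF M)}
    (h : SameRed A v w) (hv : CenteredAt A (modelFin M A) n v) :
    CenteredAt A (modelFin M A) n w := by
  have hvf := h89_isFinAt_of_centeredAt hv
  have hwf := (sameRed_isFinAt_iff h).mp hvf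
  have hrd := (sameRed_iff_fin hvf hwf).mp h
  refine ⟨exists_valueAt_modelFin hwf, fun f hf => ?_⟩
  obtain ⟨a, ha, hfa⟩ := hv.2 f hf
  refine ⟨(evFin hwf f : A), ?_, evFin_spec hwf f⟩
  have h1 : rdFin hvf f = 0 := by
    rw [rdFin_apply, IsLocalRing.residue_eq_zero_iff, ← ValuationSubring.coe_mem_nonunits_iff]
    have h2 : ((evFin hvf f : A) : Kbar) = a := valueAt_unique (evFin_spec hvf f) hfa
    rw [h2]
    exact ha
  rw [hrd, rdFin_apply, IsLocalRing.residue_eq_zero_iff,
    ← ValuationSubring.coe_mem_nonunits_iff] at h1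
  exact h1

/-- Places with the same reduction are centred at the same points at infinity. -/
theorem centeredAt_inf_of_sameRed {n : Ideal (modelInf M A)} {v w : Place Kbar (FF M)}
    (hj : (⟨(jB M)⁻¹, h89_jB_inv_mem_modelInf M A⟩ : modelInf M A) ∈ n)
    (h : SameRed A v w) (hv : CenteredAt A (modelInf M A) n v) :
    CenteredAt A (modelInf M A) n w := by
  have hvf := h89_not_isFinAt_of_centeredAt hj hv
  have hwf : ¬ IsFinAt A w := fun hw => hvf ((sameRed_isFinAt_iff h).mpr hw)
  have hrd := (sameRed_iff_inf hvf hwf).mp h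
  refine ⟨exists_valueAt_modelInf hwf, fun f hf => ?_⟩
  obtain ⟨a, ha, hfa⟩ := hv.2 f hf
  refine ⟨(evInf hwf f : A), ?_, evInf_spec hwf f⟩
  have h1 : rdInf hvf f = 0 := by
    rw [rdInf_apply, IsLocalRing.residue_eq_zero_iff, ← ValuationSubring.coe_mem_nonunits_iff]
    have h2 : ((evInf hvf f : A) : Kbar) = a := valueAt_unique (evInf_spec hvf f) hfa
    rw [h2]
    exact ha
  rw [hrd, rdInf_apply, IsLocalRing.residue_eq_zero_iff,
    ← ValuationSubring.coe_mem_nonunits_iff] at h1
  exact h1

section LocDeg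

omit [NeZero M]

open Classical in
/-- The degree of a divisor on the places satisfying `C`. -/
def h89_locDeg (C : Place Kbar (FF M) → Prop) : Divisor Kbar (FF M) →+ ℤ :=
  Finsupp.liftAddHom (fun v => if C v then AddMonoidHom.id ℤ else 0)

open Classical in
theorem h89_locDeg_single (C : Place Kbar (FF M) → Prop) (v : Place Kbar (FF M)) (m : ℤ) :
    h89_locDeg C (Finsupp.single v m) = if C v then m else 0 := by
  unfold h89_locDeg
  rw [Finsupp.liftAddHom_apply_single]
  split_ifs <;> rfl

open Classical in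
theorem h89_locDeg_apply (C : Place Kbar (FF M) → Prop) (D : Divisor Kbar (FF M)) :
    h89_locDeg C D = ∑ v ∈ D.support.filter C, D v := by
  unfold h89_locDeg
  rw [Finsupp.liftAddHom_apply, Finsupp.sum, Finset.sum_filter]
  refine Finset.sum_congr rfl fun v _ => ?_
  split_ifs <;> rfl

/-- If `C` is invariant under `SameRed`, the local degree vanishes on `redKer`. -/
theorem h89_locDeg_eq_zero [NeZero M] (C : Place Kbar (FF M) → Prop)
    (hC : ∀ v w : Place Kbar (FF M), SameRed A v w → C v → C w)
    {D : Divisor Kbar (FF M)} (hD : D ∈ redKer M A) : h89_locDeg C D = 0 := by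
  classical
  unfold redKer at hD
  induction hD using AddSubgroup.closure_induction with
  | mem D hD =>
    obtain ⟨v, w, hvw, rfl⟩ := hD
    rw [map_sub, h89_locDeg_single, h89_locDeg_single]
    have hiff : C v ↔ C w := ⟨hC v w hvw, hC w v (sameRed_symm hvw)⟩
    by_cases hv : C v
    · rw [if_pos hv, if_pos (hiff.mp hv), sub_self]
    · rw [if_neg hv, if_neg (fun hw => hv (hiff.mpr hw)), sub_self]
  | zero => exact map_zero _
  | add x y _ _ hx hy => rw [map_add, hx, hy, add_zero]
  | neg x _ hx => rw [map_neg, hx, neg_zero]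

/-- **Dictionary.**  If `div x = r · D` with `D ∈ redKer` and the centring condition is invariant
under `SameRed`, then `x` has local degree zero at `n`. -/
theorem locDegZero_of_mem_redKer [NeZero M] (R : Subring (FF M)) (n : Ideal R)
    (hC : ∀ v w : Place Kbar (FF M), SameRed A v w → CenteredAt A R n v → CenteredAt A R n w)
    {D : Divisor Kbar (FF M)} (hD : D ∈ redKer M A) (x : FF M) (r : ℤ)
    (hdiv : ∀ v : Place Kbar (FF M), v.ord x = r * D v) : LocDegZero A R n x := by
  classical
  refine ⟨D.support.filter (CenteredAt A R n), fun v hv => (Finset.mem_filter.mp hv).2,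
    fun v hv hord => ?_, ?_⟩
  · refine Finset.mem_filter.mpr ⟨Finsupp.mem_support_iff.mpr fun h0 => hord ?_, hv⟩
    rw [hdiv, h0, mul_zero]
  · have h1 := h89_locDeg_eq_zero (CenteredAt A R n) hC hD
    rw [h89_locDeg_apply] at h1
    calc ∑ v ∈ D.support.filter (CenteredAt A R n), v.ord x
        = ∑ v ∈ D.support.filter (CenteredAt A R n), r * D v :=
          Finset.sum_congr rfl fun v _ => hdiv v
      _ = r * ∑ v ∈ D.support.filter (CenteredAt A R n), D v := by rw [Finset.mul_sum]
      _ = 0 := by rw [h1, mul_zero]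

end LocDeg

end Fermat.Agent.Red.Nz
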