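import Fermat.Agent.Red.Nz.Loc
import Fermat.Agent.Red.GateGoodOf

/-!
# P-RED / R-NORMALIZE: `IfaceNormalize` from the pieces of the gate

`ifaceNormalize_of_pieces : GG.IfaceGatePieces → S37.IfaceNormalize`: NORMALIZE needs no input
beyond the chart inputs of `GateGood` (`Red/GateGoodOf.lean`).
-/

set_option autoImplicit false

namespace Fermat.Agent.Red.Nz

open Fermat.Agent.S37 Fermat.Agent.Red

/-- the inputs of NORMALIZE are among the pieces of the gate. -/
theorem ggInputs_of_pieces (h : GG.IfaceGatePieces) : GGInputs := by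
  intro ℓ hℓ M _ hM haux A hA
  obtain ⟨⟨hC, hC'⟩, -, ⟨hS, hS'⟩, -, ⟨hU, hU'⟩⟩ := h ℓ hℓ M hM haux A hA
  exact ⟨⟨hC, hU, hS⟩, ⟨hC', hU', hS'⟩⟩

/-- **NORMALIZE** from the pieces of the gate. -/
theorem ifaceNormalize_of_pieces (h : GG.IfaceGatePieces) : IfaceNormalize :=
  ifaceNormalize_of_gg (ggInputs_of_pieces h)

end Fermat.Agent.Red.Nz
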