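import Fermat.Agent.Red.Nz.Main
import Fermat.Agent.Red.GGDefs
import Fermat.Agent.Red.LocalAll
import Fermat.Prelude.Def_AlgebraicCurve_Repartitions

/-!
# P-RED / R-NORMALIZE: `LocUnit` from the local factorisation (R-LOCAL)

`locUnit_of_gg`: the local statement `LocUnit` of `Nz/Defs.lean` follows from helper26's
abstract local factorisation `h26_local_factor` (`Red/LocalFact.lean`) applied to the two charts,
i.e. from the interface statements `GG.IfaceChart`, `GG.IfaceLocalUnif`, `GG.IfaceSection` of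
`Red/GGDefs.lean` for `t = j` and `t = 1/j`.

Proof.  Let `x` be a Gauss unit, `𝔫` a closed point of the special fibre of the chart, `T` the
places centred at `𝔫` in the support of `div x`, with `∑_{v ∈ T} ord_v x = 0`.  By the local
factorisation `ε = x · ∏_{v ∈ T} (t' - t'(v)) ^ (- ord_v x)` is a unit of `B_𝔫`
(`s ε, s ε⁻¹ ∈ B` with `s ∉ 𝔫`).  Each `t' - t'(v)` is `t'` times a function with reduction `1`
(`t'(v) ∈ 𝔪_A`), so `ε = x · t' ^ (-∑ ord_v x) · (reduction 1) = x · (reduction 1)`, i.e.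
`x̄ · s̄ = (s ε)‾` with `s, s ε ∉ 𝔫`.
-/

set_option autoImplicit false

open AlgebraicCurve ModularCurve WithZero IsLocalRing

noncomputable section

namespace Fermat.Agent.Red.Nz

open Fermat.Agent.S37 Fermat.Agent.Red.GV Fermat.Agent.Red.Match Fermat.Agent.Red

/-! ### Valuations and orders -/

section Val

variable {K F : Type*} [Field K] [Field F] [Algebra K F] (v : Place K F)

theorem h89_adic_lt_one_iff (b : F) :
    v.adicValuation b < 1 ↔ b ∈ v.toValuationSubring.nonunits := by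
  rcases eq_or_ne b 0 with rfl | hb
  · simp only [map_zero, zero_lt_one, true_iff]
    exact zero_mem _
  · rw [v.adicValuation_eq_exp_neg_ord hb, ← WithZero.exp_zero, WithZero.exp_lt_exp,
      ValuationSubring.mem_nonunits_iff_or, or_iff_right hb,
      ← Fermat.Agent.S24.DiffPlace.ord_nonneg_iff_mem, v.ord_inv]
    omega

theorem h89_adic_eq_one_of_ord_eq_zero {x : F} (hx : x ≠ 0) (h : v.ord x = 0) :
    v.adicValuation x = 1 := by
  rw [v.adicValuation_eq_exp_neg_ord hx, h, neg_zero, WithZero.exp_zero]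

end Val

/-! ### Functions with reduction `1` -/

section GaussOne

variable {M : ℕ} {A : ValuationSubring Kbar}

/-- `w` is Gauss-integral with reduction `1`. -/
def GaussOne (A : ValuationSubring Kbar) (M : ℕ) (w : FF M) : Prop :=
  ∃ h : w ∈ gaussV A M, gaussR A M ⟨w, h⟩ = 1

theorem h89_gaussOne_one : GaussOne A M 1 :=
  ⟨(gaussV A M).one_mem, map_one (gaussR A M)⟩

theorem h89_gaussOne_mul {w w' : FF M} (h : GaussOne A M w) (h' : GaussOne A M w') :
    GaussOne A M (w * w') := by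
  obtain ⟨hw, hw1⟩ := h
  obtain ⟨hw', hw1'⟩ := h'
  refine ⟨mul_mem hw hw', ?_⟩
  have h1 : (⟨w * w', mul_mem hw hw'⟩ : gaussV A M) = ⟨w, hw⟩ * ⟨w', hw'⟩ := rfl
  rw [h1, map_mul, hw1, hw1', one_mul]

theorem h89_gaussOne_pow {w : FF M} (h : GaussOne A M w) (m : ℕ) : GaussOne A M (w ^ m) := by
  induction m with
  | zero => rw [pow_zero]; exact h89_gaussOne_one
  | succ m ih => rw [pow_succ]; exact h89_gaussOne_mul ih h

theorem h89_gaussOne_prod {α : Type*} (T : Finset α) (f : α → FF M)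
    (hf : ∀ i ∈ T, GaussOne A M (f i)) : GaussOne A M (∏ i ∈ T, f i) :=
  Finset.prod_induction f (fun x => GaussOne A M x) (fun _ _ ha hb => h89_gaussOne_mul ha hb)
    h89_gaussOne_one hf

variable {ℓ : ℕ} [NeZero M]

theorem h89_gaussOne_inv (hℓ : ℓ.Prime) (hM : ¬ ℓ ∣ M) (hA : A.LiesOverPrime ℓ) {w : FF M}
    (h : GaussOne A M w) : GaussOne A M w⁻¹ := by
  obtain ⟨hw, hw1⟩ := h
  have hne : gaussR A M ⟨w, hw⟩ ≠ 0 := by rw [hw1]; exact one_ne_zero
  have h0 := (gaussR_eq_zero_iff A M hℓ hM hA ⟨w, hw⟩).not.mp hne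
  rw [not_or, not_not] at h0
  obtain ⟨hw0, hwi⟩ := h0
  refine ⟨hwi, ?_⟩
  have h1 : (⟨w, hw⟩ : gaussV A M) * ⟨w⁻¹, hwi⟩ = 1 := Subtype.ext (mul_inv_cancel₀ hw0)
  have h2 := congrArg (gaussR A M) h1
  rw [map_mul, hw1, one_mul, map_one] at h2
  exact h2

theorem h89_gaussOne_zpow (hℓ : ℓ.Prime) (hM : ¬ ℓ ∣ M) (hA : A.LiesOverPrime ℓ) {w : FF M}
    (h : GaussOne A M w) (z : ℤ) : GaussOne A M (w ^ z) := by
  obtain ⟨m, rfl | rfl⟩ := z.eq_nat_or_neg
  · rw [zpow_natCast]; exact h89_gaussOne_pow h m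
  · rw [zpow_neg, zpow_natCast]; exact h89_gaussOne_inv hℓ hM hA (h89_gaussOne_pow h m)

omit [NeZero M] in
/-- `1 + c · z` has reduction `1` for `c ∈ 𝔪_A` and `z` Gauss-integral. -/
theorem h89_gaussOne_one_add (c : A) (hc : c ∈ maximalIdeal A) {z : FF M}
    (hz : z ∈ gaussV A M) : GaussOne A M (1 + cst M (c : Kbar) * z) := by
  have hcV := h89_cst_mem_gaussV (M := M) c
  refine ⟨add_mem (gaussV A M).one_mem (mul_mem hcV hz), ?_⟩
  have h1 : (⟨1 + cst M (c : Kbar) * z, add_mem (gaussV A M).one_mem (mul_mem hcV hz)⟩ :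
      gaussV A M) = 1 + ⟨cst M (c : Kbar), hcV⟩ * ⟨z, hz⟩ := rfl
  rw [h1, map_add, map_one, map_mul, h89_gaussR_cst, (IsLocalRing.residue_eq_zero_iff c).mpr hc,
    map_zero, zero_mul, add_zero]

end GaussOne

/-! ### The dictionary between `CenteredAt` and `h26Centered` -/

section Centre

variable {M : ℕ} [NeZero M] {A : ValuationSubring Kbar}

omit [NeZero M] in
/-- `𝔪_A B ⊆ 𝔫` in the vocabulary of `GG`. -/
theorem h89_map_le (t : FF M) (n : Ideal (modelAt M A t)) (hmax : maxExt A (modelAt M A t) ≤ n) :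
    (maximalIdeal A).map (algebraMap A (GG.chart M A t)) ≤ (n : Ideal (GG.chart M A t)) := by
  rw [Ideal.map_le_iff_le_comap]
  intro a ha
  rw [Ideal.mem_comap]
  refine hmax (Ideal.subset_span ⟨(a : Kbar), ?_, rfl⟩)
  exact ValuationSubring.coe_mem_nonunits_iff.mpr ha

omit [NeZero M] in
/-- a place centred at `n` (in the sense of `Nz/Defs.lean`) is centred at `n` in the sense of
`Red/LocalFact.lean`. -/
theorem h89_h26Centered_of_centeredAt (t : FF M) (n : Ideal (modelAt M A t)) (hn : n.IsMaximal)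
    {v : Place Kbar (FF M)} (hv : CenteredAt A (modelAt M A t) n v)
    (ht : t ∈ v.toValuationSubring) :
    h26Centered (GG.chart M A t) (GG.chartVal M t) (n : Ideal (GG.chart M A t)) ⟨v, ht⟩ := by
  intro b hb
  have hb0 : ValueAt v (b : FF M) 0 := by
    unfold ValueAt
    simp only [cst, map_zero, sub_zero]
    exact (h89_adic_lt_one_iff v _).mp hb
  by_contra hbn
  obtain ⟨c, i, hi, hci⟩ := hn.exists_inv hbn
  obtain ⟨a, ha, hia⟩ := hv.2 i hi
  obtain ⟨cv, hcv⟩ := hv.1 c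
  have h1 := valueAt_add (valueAt_mul hcv hb0) hia
  have h2 : ((c : modelAt M A t) : FF M) * (b : FF M) + ((i : modelAt M A t) : FF M) = 1 :=
    congrArg Subtype.val hci
  rw [h2] at h1
  have h3 := valueAt_unique h1 (valueAt_one v)
  rw [mul_zero, zero_add] at h3
  rw [h3] at ha
  exact h89_one_not_mem_nonunits A ha

/-- a place centred at the maximal ideal `n ⊇ 𝔪_A B` in the sense of `Red/LocalFact.lean` is
centred at `n` in the sense of `Nz/Defs.lean`. -/
theorem h89_centeredAt_of_h26Centered (t : FF M) (n : Ideal (modelAt M A t)) (hn : n.IsMaximal)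
    (hmax : maxExt A (modelAt M A t) ≤ n) (i : GG.ChartPlace M t)
    (hi : h26Centered (GG.chart M A t) (GG.chartVal M t) (n : Ideal (GG.chart M A t)) i) :
    CenteredAt A (modelAt M A t) n i.1 := by
  have htm : t ∈ modelAt M A t :=
    ringAdj_le_modelAt M A t (Fermat.Agent.Red.Match.self_mem_ringAdj M A t)
  have hcm : ∀ a : Kbar, a ∈ A → cst M a ∈ modelAt M A t := fun a ha =>
    cst_mem_modelAt M A t ha
  -- membership in `n` from vanishing at the place
  have hvan : ∀ b : modelAt M A t, ValueAt i.1 (b : FF M) 0 → b ∈ n := by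
    intro b hb
    refine hi b ((h89_adic_lt_one_iff i.1 _).mpr ?_)
    unfold ValueAt at hb
    simpa only [cst, map_zero, sub_zero] using hb
  obtain ⟨c, hc⟩ := exists_valueAt i.1 i.2
  have hcA : c ∈ A := by
    by_contra hcn
    have hci : c⁻¹ ∈ A.nonunits := (ValuationSubring.inv_mem_nonunits_iff _).mpr (Or.inr hcn)
    have hc0 : c ≠ 0 := fun h => hcn (h ▸ A.zero_mem)
    have hciA : c⁻¹ ∈ A := ValuationSubring.nonunits_subset hci
    have hbv : ValueAt i.1 (1 - cst M c⁻¹ * t) 0 := by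
      have h1 := valueAt_sub (valueAt_one i.1) (valueAt_mul (valueAt_cst i.1 c⁻¹) hc)
      rwa [inv_mul_cancel₀ hc0, sub_self] at h1
    have hbn : (1 - ⟨cst M c⁻¹, hcm _ hciA⟩ * ⟨t, htm⟩ : modelAt M A t) ∈ n := hvan _ hbv
    have hcn' : (⟨cst M c⁻¹, hcm _ hciA⟩ : modelAt M A t) ∈ n :=
      hmax (Ideal.subset_span ⟨c⁻¹, hci, rfl⟩)
    have h1 : (1 : modelAt M A t) ∈ n := by
      have h2 := n.add_mem hbn (n.mul_mem_right ⟨t, htm⟩ hcn')
      rwa [sub_add_cancel] at h2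
    exact hn.ne_top ((Ideal.eq_top_iff_one _).mpr h1)
  have hval : ∀ f : modelAt M A t, ∃ a : A, ValueAt i.1 (f : FF M) (a : Kbar) := fun f =>
    exists_valueAt_modelAt A i.1 t ⟨⟨c, hcA⟩, hc⟩ f f.2
  refine ⟨hval, fun f hf => ?_⟩
  obtain ⟨a, ha⟩ := hval f
  refine ⟨(a : Kbar), ?_, ha⟩
  by_contra hau
  have ha0 : (a : Kbar) ≠ 0 := fun h => hau (h ▸ zero_mem _)
  have haiA : (a : Kbar)⁻¹ ∈ A := by
    rw [ValuationSubring.mem_nonunits_iff_or, not_or, not_not] at hau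
    exact hau.2
  have h1 : (f - ⟨cst M (a : Kbar), hcm _ a.2⟩ : modelAt M A t) ∈ n :=
    hvan _ (by
      have h2 := valueAt_sub ha (valueAt_cst i.1 (a : Kbar))
      rwa [sub_self] at h2)
  have h2 : (⟨cst M (a : Kbar), hcm _ a.2⟩ : modelAt M A t) ∈ n := by
    have h3 := n.sub_mem hf h1
    rwa [sub_sub_cancel] at h3
  have h3 : (1 : modelAt M A t) ∈ n := by
    have h4 := n.mul_mem_left ⟨cst M (a : Kbar)⁻¹, hcm _ haiA⟩ h2
    have h5 : (⟨cst M (a : Kbar)⁻¹, hcm _ haiA⟩ * ⟨cst M (a : Kbar), hcm _ a.2⟩ :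
        modelAt M A t) = 1 := by
      apply Subtype.ext
      show cst M (a : Kbar)⁻¹ * cst M (a : Kbar) = 1
      rw [← map_mul, inv_mul_cancel₀ ha0, map_one]
    rwa [h5] at h4
  exact hn.ne_top ((Ideal.eq_top_iff_one _).mpr h3)

end Centre

/-! ### The local theorem -/

section Main

variable {M : ℕ} [NeZero M] {A : ValuationSubring Kbar} {ℓ : ℕ}

/-- **Local unit at a closed point of a chart.** -/
theorem h89_redUnitAt (hℓ : ℓ.Prime) (hM : ¬ ℓ ∣ M) (hA : A.LiesOverPrime ℓ) (t : FF M)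
    (hC : GG.IfaceChart M A t) (hU : GG.IfaceLocalUnif M A t) (hS : GG.IfaceSection M A t)
    (n : Ideal (modelAt M A t)) (hn : n.IsMaximal) (hmax : maxExt A (modelAt M A t) ≤ n)
    (x : FF M) (hx0 : x ≠ 0) (hxV : x ∈ gaussV A M) (hxiV : x⁻¹ ∈ gaussV A M)
    (hdz : LocDegZero A (modelAt M A t) n x) : RedUnitAt A (modelAt M A t) n x := by
  classical
  have hnP : (n : Ideal (GG.chart M A t)).IsPrime := hn.isPrime
  have hle := h89_map_le t n hmax
  have htm : t ∈ modelAt M A t :=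
    ringAdj_le_modelAt M A t (Fermat.Agent.Red.Match.self_mem_ringAdj M A t)
  obtain ⟨T₀, hT₀c, hT₀all, hT₀sum⟩ := hdz
  have hreg : ∀ v ∈ T₀, t ∈ v.toValuationSubring := fun v hv => by
    obtain ⟨a, ha⟩ := (hT₀c v hv).1 ⟨t, htm⟩
    exact valueAt_mem ha
  set T : Finset (GG.ChartPlace M t) :=
    T₀.subtype (fun v => t ∈ v.toValuationSubring) with hT
  have hTmem : ∀ i : GG.ChartPlace M t, i ∈ T ↔ i.1 ∈ T₀ := fun i => Finset.mem_subtype
  have hTc : ∀ i ∈ T, h26Centered (GG.chart M A t) (GG.chartVal M t)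
      (n : Ideal (GG.chart M A t)) i := fun i hi =>
    h89_h26Centered_of_centeredAt t n hn (hT₀c i.1 ((hTmem i).mp hi)) i.2
  have hval : ∀ i : GG.ChartPlace M t, GG.chartVal M t i x = exp (-(i.1.ord x)) := fun i =>
    i.1.adicValuation_eq_exp_neg_ord hx0
  have hw1 : ∀ k, h26Centered (GG.chart M A t) (GG.chartVal M t)
      (n : Ideal (GG.chart M A t)) k → k ∉ T → GG.chartVal M t k x = 1 := by
    intro k hk hkT
    have hkc := h89_centeredAt_of_h26Centered t n hn hmax k hk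
    have hord : k.1.ord x = 0 := by
      by_contra h0
      exact hkT ((hTmem k).mpr (hT₀all k.1 hkc h0))
    exact h89_adic_eq_one_of_ord_eq_zero k.1 hx0 hord
  have hsum : ∑ i ∈ T, i.1.ord x = 0 := by
    have key := Finset.sum_subtype_of_mem (s := T₀)
      (p := fun v : Place Kbar (FF M) => t ∈ v.toValuationSubring)
      (fun v : Place Kbar (FF M) => v.ord x) hreg
    exact key.trans hT₀sum
  -- the conclusion from a local unit `ε = x · y`, `y` with reduction `1`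
  have hfinal : ∀ y : FF M, GaussOne A M y →
      (∃ s : GG.chart M A t, s ∉ (n : Ideal (GG.chart M A t)) ∧
        (s : FF M) * (x * y) ∈ GG.chart M A t ∧ (s : FF M) * (x * y)⁻¹ ∈ GG.chart M A t) →
      RedUnitAt A (modelAt M A t) n x := by
    rintro y ⟨hyV, hy1⟩ ⟨s, hs, hsε, hsε'⟩
    have hy0 : y ≠ 0 := by
      rintro rfl
      have h1 : (⟨(0 : FF M), hyV⟩ : gaussV A M) = 0 := rfl
      rw [h1, map_zero] at hy1
      exact zero_ne_one hy1
    have hxy0 : x * y ≠ 0 := mul_ne_zero hx0 hy0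
    refine ⟨⟨(s : FF M) * (x * y), hsε⟩, s, ?_, hs, ?_⟩
    · intro ha
      have h1 : ((⟨(s : FF M) * (x * y), hsε⟩ : modelAt M A t) *
          ⟨(s : FF M) * (x * y)⁻¹, hsε'⟩) ∈ n := n.mul_mem_right _ ha
      have h2 : ((⟨(s : FF M) * (x * y), hsε⟩ : modelAt M A t) *
          ⟨(s : FF M) * (x * y)⁻¹, hsε'⟩) = s * s := by
        apply Subtype.ext
        show (s : FF M) * (x * y) * ((s : FF M) * (x * y)⁻¹) = (s : FF M) * (s : FF M)
        field_simp
      rw [h2] at h1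
      exact hs ((hnP.mem_or_mem h1).elim id id)
    · have hsV : (s : FF M) ∈ gaussV A M := hC.hBV _ s.2
      refine ⟨sub_mem (mul_mem hxV hsV) (mul_mem hsV (mul_mem hxV hyV)), ?_⟩
      have h3 : (⟨x * (s : FF M) - (s : FF M) * (x * y),
          sub_mem (mul_mem hxV hsV) (mul_mem hsV (mul_mem hxV hyV))⟩ : gaussV A M) =
          ⟨x, hxV⟩ * ⟨(s : FF M), hsV⟩ - ⟨(s : FF M), hsV⟩ * (⟨x, hxV⟩ * ⟨y, hyV⟩) := rfl
      rw [h3, map_sub, map_mul, map_mul, map_mul, hy1, mul_one, mul_comm, sub_self]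
  by_cases hTe : T = ∅
  · have hw1' : ∀ k, h26Centered (GG.chart M A t) (GG.chartVal M t)
        (n : Ideal (GG.chart M A t)) k → GG.chartVal M t k x = 1 := fun k hk =>
      hw1 k hk (by rw [hTe]; exact Finset.notMem_empty k)
    obtain ⟨s, hs, h1, h2⟩ :=
      h26_local_unit (h𝔫 := hnP) hC (n : Ideal (GG.chart M A t)) x hxV hxiV hw1'
    refine hfinal 1 h89_gaussOne_one ⟨s, hs, ?_, ?_⟩
    · rwa [mul_one]
    · rwa [mul_one]
  · obtain ⟨i₀, hi₀⟩ := Finset.nonempty_iff_ne_empty.mpr hTe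
    obtain ⟨t', ht'n, ht'0, ht'V, hprin⟩ := hU (n : Ideal (GG.chart M A t)) hn hle
    obtain ⟨φ₀, -, -⟩ := hS i₀ (n : Ideal (GG.chart M A t)) hn hle (hTc i₀ hi₀)
    have hex : ∀ i : GG.ChartPlace M t, ∃ φ : GG.chart M A t →ₐ[A] A, i ∈ T →
        ((∀ b : GG.chart M A t, φ b = 0 ↔ GG.chartVal M t i (b : FF M) < 1) ∧
          (RingHom.ker (φ : GG.chart M A t →+* A)).FG) := by
      intro i
      by_cases hi : i ∈ T
      · obtain ⟨φ, h1, h2⟩ := hS i (n : Ideal (GG.chart M A t)) hn hle (hTc i hi)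
        exact ⟨φ, fun _ => ⟨h1, h2⟩⟩
      · exact ⟨φ₀, fun h => (hi h).elim⟩
    choose φ hφ using hex
    obtain ⟨s, hs, h1, h2⟩ := h26_local_factor (h𝔫 := hnP) hC (n : Ideal (GG.chart M A t)) hle
      t' ht'n ht'0
      ht'V hprin T φ (fun i hi => (hφ i hi).1) (fun i hi => (hφ i hi).2) hTc x hxV hxiV
      (fun i => i.1.ord x) (fun i _ => hval i) hw1
    refine hfinal _ ?_ ⟨s, hs, h1, h2⟩
    have hci : ∀ i ∈ T, φ i t' ∈ maximalIdeal A := fun i hi =>
      h26_section_local (B := GG.chart M A t) (h𝔫 := hnP) (n : Ideal (GG.chart M A t)) (φ i)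
        (fun b hb => hTc i hi b (((hφ i hi).1 b).mp hb)) t' ht'n
    have hfac : ∀ i ∈ T, ((t' : FF M) - algebraMap A (FF M) (φ i t')) ^ (-(i.1.ord x)) =
        (t' : FF M) ^ (-(i.1.ord x)) *
          (1 + cst M ((-(φ i t') : A) : Kbar) * (t' : FF M)⁻¹) ^ (-(i.1.ord x)) := by
      intro i _
      rw [← mul_zpow]
      congr 1
      have h3 : algebraMap A (FF M) (φ i t') = cst M ((φ i t' : A) : Kbar) := rfl
      have h4 : cst M ((-(φ i t') : A) : Kbar) = - cst M ((φ i t' : A) : Kbar) := by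
        simp only [cst, NegMemClass.coe_neg, map_neg]
      rw [h3, h4]
      field_simp
      ring
    rw [Finset.prod_congr rfl hfac, Finset.prod_mul_distrib, h26_prod_zpow_const T _ ht'0,
      Finset.sum_neg_distrib, hsum, neg_zero, zpow_zero, one_mul]
    exact h89_gaussOne_prod T _ (fun i hi =>
      h89_gaussOne_zpow hℓ hM hA (h89_gaussOne_one_add _ (neg_mem (hci i hi)) ht'V) _)

end Main

/-! ### `LocUnit` and `IfaceNormalize` from the interfaces of R-GATEGOOD -/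

/-- the inputs of `LocUnit` at the good levels: the chart axioms, the local uniformisers
(smoothness) and the sections, for the two charts `t = j` and `t = 1/j`. -/
def GGInputs : Prop :=
  ∀ ℓ : ℕ, ℓ.Prime → ∀ (M : ℕ) [NeZero M], ¬ ℓ ∣ M → auxLevel ℓ ∣ M →
    ∀ A : ValuationSubring Kbar, A.LiesOverPrime ℓ →
      (GG.IfaceChart M A (jB M) ∧ GG.IfaceLocalUnif M A (jB M) ∧ GG.IfaceSection M A (jB M)) ∧
      (GG.IfaceChart M A (jB M)⁻¹ ∧ GG.IfaceLocalUnif M A (jB M)⁻¹ ∧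
        GG.IfaceSection M A (jB M)⁻¹)

/-- **LOCAL for NORMALIZE.** -/
theorem locUnit_of_gg (h : GGInputs) : LocUnit := by
  intro ℓ hℓ M _ hM haux A hA x hx0 hxV hxiV
  obtain ⟨⟨hC, hU, hS⟩, ⟨hC', hU', hS'⟩⟩ := h ℓ hℓ M hM haux A hA
  exact ⟨fun n hn hmax hdz =>
      h89_redUnitAt hℓ hM hA (jB M) hC hU hS n hn hmax x hx0 hxV hxiV hdz,
    fun n hn hmax _ hdz =>
      h89_redUnitAt hℓ hM hA (jB M)⁻¹ hC' hU' hS' n hn hmax x hx0 hxV hxiV hdz⟩

/-- **NORMALIZE** from the interfaces of R-GATEGOOD. -/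
theorem ifaceNormalize_of_gg (h : GGInputs) : IfaceNormalize :=
  ifaceNormalize_of_locUnit (locUnit_of_gg h)

end Fermat.Agent.Red.Nz
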